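import Fermat.Agent.Ribet.H537.DimK
import Fermat.Agent.Ribet.H764.I3Res
import Fermat.Agent.A3.GR.H195.GenusLeaf
import Fermat.Agent.S37.H28.DatumM
import Fermat.Agent.Lib.RR.H80.Res.ModularGenus
import Fermat.Agent.S20

/-!
# Row 38 / WALL-p / leaf I3-DIMK at the residue fields (helper537)

* `genusFF_kRes_eq` : at a good level (`p ≥ 5`, or `p = 3`, `2 ∣ M`, or `p = 2`, `3 ∣ M`) the
  adelic genus of `F_k = modularFunctionFieldFullC k M`, `k = A/𝔪`, is `dim S₂(Γ₀(M))`
  (`A3.GR.H195.genus_eq_modular` + `S37.H28.datumStatement` + `H80` + S24 + S20);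
* `dimAt_kRes` : `I3.DimAt M (kRes A)` at good levels;
* **`dim5 : I3.Dim5Statement`** (VERBATIM, `I3Res.lean`).
-/

set_option autoImplicit false
set_option synthInstance.maxHeartbeats 400000
set_option linter.style.haveILetI false

noncomputable section

open AlgebraicCurve ModularCurve

namespace Fermat.Agent.Ribet.H537

open Fermat.Agent.Ribet.H764.I3

/-- The genus of `X₀(M)` over the residue field `k = A/𝔪` (good level) is `dim S₂(Γ₀(M))`. -/
theorem genusFF_kRes_eq (p M : ℕ) [NeZero M] (hp : p.Prime) (hpM : ¬ p ∣ M)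
    (hg : Fermat.Agent.S37.Core.GoodLevel M p)
    (A : ValuationSubring (AlgebraicClosure ℚ)) (hA : A.LiesOverPrime p) :
    genusFF (kRes A) (modularFunctionFieldFullC (kRes A) M) =
      Module.finrank ℂ (CuspForm (CongruenceSubgroup.Gamma0 M) 2) := by
  obtain ⟨G, hG, -⟩ := Fermat.Agent.S37.H28.datumStatement M p hp hpM hg A hA
  have h1 := Fermat.Agent.A3.GR.H195.genus_eq_modular M p hp hpM A hA G hG
  have h2 := Fermat.Agent.Lib.RR.H80.genusFF_modular_eq_genusFormula M
  have h3 := Fermat.Agent.S20.result M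
  have h4 : ((genusFF (kRes A) (modularFunctionFieldFullC (kRes A) M) : ℕ) : ℚ) =
      ((Module.finrank ℂ (CuspForm (CongruenceSubgroup.Gamma0 M) 2) : ℕ) : ℚ) := by
    rw [h3, ← h2, h1]
  exact_mod_cast h4

/-- **DIMK at the residue field**, good levels. -/
theorem dimAt_kRes (p M : ℕ) [NeZero M] (hp : p.Prime) (hpM : ¬ p ∣ M)
    (hg : Fermat.Agent.S37.Core.GoodLevel M p)
    (A : ValuationSubring (AlgebraicClosure ℚ)) (hA : A.LiesOverPrime p) :
    DimAt M (kRes A) := by
  intro W _ hW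
  haveI := charP_kRes A hp hA
  haveI := isAlgClosed_kRes A
  exact (finrank_le_genusFF (kRes A) M p hp hpM W hW).trans
    (genusFF_kRes_eq p M hp hpM hg A hA).le

/-- **I3-DIMK**, `p ≥ 5`, at the residue fields. -/
theorem dim5 : Dim5Statement := by
  intro p M _ hp h5 hpM A hA
  exact dimAt_kRes p M hp hpM (Or.inl h5) A hA

end Fermat.Agent.Ribet.H537
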