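import Fermat.Agent.Ribet.H537.HoloDim
import Fermat.Agent.Ribet.H764.I3Spec
import Fermat.Agent.S18.H264.SepModular
import Fermat.Agent.S18.H383.FF1Modular
import Fermat.Agent.S24.H84.OrdDiff

/-!
# Row 38 / WALL-p / leaf I3-DIMK (helper537): holomorphic `q`-series have dimension `≤ genus`

`k` algebraically closed of characteristic `p ∤ M`, `F = modularFunctionFieldFullC k M ⊆ k((q))`.

Generic part (`K`, `F` a function field `FF1 K F`, `σ : F → K((q))` constant on `K`):
* `theta`      : `θ = q d/dq` on `K((q))`; `isTheta_iff` : `IsTheta f f' ↔ f' = theta f`;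
* `exists_Theta` : a `K`-linear `Θ : Ω[F⁄K] → K((q))` with `Θ (c • ω) = σ c · Θ ω`,
  `Θ (D t) = θ (σ t)`;
* `span_D_eq_top_of_isSeparable`, `Theta_injective`;
* `isHolo_of_Theta` : if `Θ ω` is a holomorphic `q`-series (`IsHoloVia σ`), then `ω` is a
  holomorphic Kähler differential (`H537.IsHolo`);
* `finrank_le_genusFF_of_isHoloVia` : a space of holomorphic `q`-series has dimension
  `≤ genusFF K F` (from `HoloDim.finrank_le_genusFF_of_isHolo`: Tate residues, no reduction
  theory, any characteristic).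

Modular part:
* `finrank_le_genusFF` : for `W ⊆ k⟦q⟧` consisting of `I3.IsHoloSeries k M`,
  `finrank k W ≤ genusFF k (modularFunctionFieldFullC k M)`;
* `dimStatement_of_genusBound : GenusBoundStatement → I3.DimStatement`.
-/

set_option autoImplicit false

noncomputable section

open AlgebraicCurve KaehlerDifferential ModularCurve HahnSeries IntermediateField

namespace Fermat.Agent.Ribet.H537

open Fermat.Agent.Lib.RR Fermat.Agent.Ribet.H764.I3 Fermat.Agent.S24.H84

/-! ## `θ = q d/dq` -/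

section Theta

variable {k : Type*} [Field k]

/-- `θ = q · d/dq` on Laurent series. -/
def theta (f : LaurentSeries k) : LaurentSeries k :=
  HahnSeries.single (1 : ℤ) (1 : k) * laurentD k f

theorem theta_coeff (f : LaurentSeries k) (n : ℤ) : (theta f).coeff n = (n : k) * f.coeff n := by
  have h : n = (n - 1) + 1 := by ring
  unfold theta
  conv_lhs => rw [h]
  rw [HahnSeries.coeff_single_mul_add, one_mul, laurentD_coeff, sub_add_cancel]

theorem theta_jqModC_ne_zero : theta (jqModC k) ≠ 0 := by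
  intro h
  have h1 := theta_coeff (jqModC k) (-1)
  rw [h, coeff_jqModC_neg_one] at h1
  simp at h1

end Theta

section ThetaI3

variable {k : Type} [Field k]

theorem isTheta_theta (f : LaurentSeries k) : IsTheta f (theta f) := fun n => theta_coeff f n

theorem isTheta_iff {f f' : LaurentSeries k} : IsTheta f f' ↔ f' = theta f := by
  constructor
  · intro h
    ext n
    rw [h n, theta_coeff]
  · rintro rfl
    exact isTheta_theta f

end ThetaI3

/-! ## Generic part -/

section Generic

variable {K F : Type*} [Field K] [Field F] [Algebra K F]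

/-- `ofPowerSeries` as a `K`-linear map (for the coefficientwise `K`-action on `K((q))`). -/
def ofPSLin (K : Type*) [Field K] : PowerSeries K →ₗ[K] LaurentSeries K where
  toFun g := HahnSeries.ofPowerSeries ℤ K g
  map_add' a b := map_add _ a b
  map_smul' c g := by
    rw [RingHom.id_apply, ← HahnSeries.C_mul_eq_smul, ← HahnSeries.ofPowerSeries_C,
      ← map_mul]
    congr 1
    ext n
    simp

theorem ofPSLin_apply (g : PowerSeries K) : ofPSLin K g = HahnSeries.ofPowerSeries ℤ K g := rfl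

theorem ofPSLin_injective : Function.Injective (ofPSLin K) :=
  HahnSeries.ofPowerSeries_injective

/-- `Θ : Ω[F⁄K] → K((q))`, `K`-linear, `σ`-semilinear, `Θ (D t) = θ (σ t)`. -/
theorem exists_Theta (σ : F →+* LaurentSeries K)
    (hσ : ∀ c : K, σ (algebraMap K F c) = HahnSeries.C c) :
    ∃ Θ : Ω[F⁄K] →ₗ[K] LaurentSeries K,
      (∀ (f : F) (ω : Ω[F⁄K]), Θ (f • ω) = σ f * Θ ω) ∧
      ∀ y : F, Θ (D K F y) = theta (σ y) := by
  obtain ⟨L, hL1, hL2⟩ := exists_kaehler_to_laurent σ (RingHom.id K) hσ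
  refine ⟨{ toFun := fun ω => HahnSeries.single (1 : ℤ) (1 : K) * L ω
            map_add' := fun a b => by rw [map_add, mul_add]
            map_smul' := fun c ω => ?_ }, fun f ω => ?_, fun y => ?_⟩
  · rw [RingHom.id_apply, ← algebraMap_smul F c ω, hL1, hσ, ← HahnSeries.C_mul_eq_smul]
    ring
  · show HahnSeries.single (1 : ℤ) (1 : K) * L (f • ω) =
      σ f * (HahnSeries.single (1 : ℤ) (1 : K) * L ω)
    rw [hL1]
    ring
  · show HahnSeries.single (1 : ℤ) (1 : K) * L (D K F y) = theta (σ y)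
    rw [hL2]
    rfl

/-- If `F / K(x)` is separable algebraic, then `D x` spans `Ω[F⁄K]` (any characteristic). -/
theorem span_D_eq_top_of_isSeparable (x : F) [Algebra.IsSeparable K⟮x⟯ F] :
    Submodule.span F {D K F x} = ⊤ := by
  have : Algebra.FormallyUnramified K⟮x⟯ F := Algebra.FormallyUnramified.of_isSeparable _ _
  have : Subsingleton Ω[F⁄K⟮x⟯] := Algebra.FormallyUnramified.subsingleton_kaehlerDifferential
  rw [eq_top_iff]
  intro ω _
  have hex := KaehlerDifferential.exact_mapBaseChange_map K K⟮x⟯ F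
  have h0 : KaehlerDifferential.map K K⟮x⟯ F F ω = 0 := Subsingleton.elim _ _
  obtain ⟨t, rfl⟩ := (hex ω).1 h0
  exact mapBaseChange_mem_span_D x t

/-- `Θ` is injective as soon as `Ω[F⁄K] = F · D j` with `θ (σ j) ≠ 0`. -/
theorem Theta_injective (σ : F →+* LaurentSeries K) (Θ : Ω[F⁄K] →ₗ[K] LaurentSeries K)
    (hΘ1 : ∀ (f : F) (ω : Ω[F⁄K]), Θ (f • ω) = σ f * Θ ω)
    (hΘ2 : ∀ y : F, Θ (D K F y) = theta (σ y))
    (j : F) (hj : Submodule.span F {D K F j} = ⊤) (hθ : theta (σ j) ≠ 0) :
    Function.Injective Θ := by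
  rw [injective_iff_map_eq_zero]
  intro ω hω
  have hmem : ω ∈ Submodule.span F {D K F j} := by rw [hj]; trivial
  obtain ⟨c, rfl⟩ := Submodule.mem_span_singleton.1 hmem
  rw [hΘ1, hΘ2, mul_eq_zero] at hω
  rcases hω with h | h
  · rw [map_eq_zero] at h
    rw [h, zero_smul]
  · exact absurd h hθ

/-- `g · dq/q` is a holomorphic differential of `F` (seen in `K((q))` via `σ`). -/
def IsHoloVia (σ : F →+* LaurentSeries K) (g : PowerSeries K) : Prop :=
  ∀ (Q : Place K F) (t : F), Q.ord t = 1 →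
    ∃ u : F, 0 ≤ Q.ord u ∧ HahnSeries.ofPowerSeries ℤ K g = σ u * theta (σ t)

theorem isHolo_of_Theta (σ : F →+* LaurentSeries K) (Θ : Ω[F⁄K] →ₗ[K] LaurentSeries K)
    (hΘ1 : ∀ (f : F) (ω : Ω[F⁄K]), Θ (f • ω) = σ f * Θ ω)
    (hΘ2 : ∀ y : F, Θ (D K F y) = theta (σ y)) (hinj : Function.Injective Θ)
    (ω : Ω[F⁄K]) (g : PowerSeries K) (hω : Θ ω = HahnSeries.ofPowerSeries ℤ K g)
    (hg : IsHoloVia σ g) : IsHolo ω := by
  intro v
  obtain ⟨t, ht⟩ := exists_ord_eq_one v
  obtain ⟨u, hu, hgu⟩ := hg v t ht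
  refine ⟨t, u, ht, hu, hinj ?_⟩
  rw [hω, hgu, hΘ1, hΘ2]

variable [hFF : FF1 K F]

/-- **Generic dimension bound**: a `K`-space of `q`-series which are holomorphic differentials of
`F` has dimension at most `genusFF K F`. -/
theorem finrank_le_genusFF_of_isHoloVia (σ : F →+* LaurentSeries K)
    (hσ : ∀ c : K, σ (algebraMap K F c) = HahnSeries.C c)
    (j : F) (hj : Submodule.span F {D K F j} = ⊤) (hθ : theta (σ j) ≠ 0)
    (W : Submodule K (PowerSeries K)) (hW : ∀ g ∈ W, IsHoloVia σ g) :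
    Module.finrank K W ≤ genusFF K F := by
  obtain ⟨Θ, hΘ1, hΘ2⟩ := exists_Theta σ hσ
  have hinj := Theta_injective σ Θ hΘ1 hΘ2 j hj hθ
  set W' : Submodule K (LaurentSeries K) := W.map (ofPSLin K) with hW'
  set U : Submodule K Ω[F⁄K] := W'.comap Θ with hU
  have hle : W' ≤ LinearMap.range Θ := by
    rintro _ ⟨g, hgW, rfl⟩
    obtain ⟨v⟩ := hFF.nonempty_place
    obtain ⟨t, ht⟩ := exists_ord_eq_one v
    obtain ⟨u, -, hgu⟩ := hW g hgW v t ht
    refine ⟨u • D K F t, ?_⟩
    rw [hΘ1, hΘ2, ofPSLin_apply, hgu]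
  have hUW : U.map Θ = W' := by
    rw [hU, Submodule.map_comap_eq, inf_eq_right.2 hle]
  have hholo : ∀ ω ∈ U, IsHolo ω := by
    intro ω hω
    obtain ⟨g, hgW, hg⟩ := hω
    exact isHolo_of_Theta σ Θ hΘ1 hΘ2 hinj ω g hg.symm (hW g hgW)
  have e1 : Module.finrank K W = Module.finrank K W' :=
    (Submodule.equivMapOfInjective (ofPSLin K) ofPSLin_injective W).finrank_eq
  have e2 : Module.finrank K U = Module.finrank K (U.map Θ) :=
    (Submodule.equivMapOfInjective Θ hinj U).finrank_eq
  rw [e1, ← hUW, ← e2]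
  exact finrank_le_genusFF_of_isHolo U hholo

end Generic

/-! ## The modular function field -/

section Modular

variable (k : Type) [Field k] (M : ℕ) [NeZero M]

/-- `I3.IsHoloSeries` is `IsHoloVia` for the inclusion `F ⊆ k((q))`. -/
theorem isHoloVia_of_isHoloSeries {g : PowerSeries k} (hg : IsHoloSeries k M g) :
    IsHoloVia (algebraMap (modularFunctionFieldFullC k M) (LaurentSeries k)) g := by
  intro Q t ht
  obtain ⟨u, t', ht', hu, hgu⟩ := hg Q t ht
  refine ⟨u, ord_nonneg_of_mem Q hu, ?_⟩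
  rw [hgu, isTheta_iff.1 ht']
  rfl

/-- **DIMK over a fixed `k`**: a space of holomorphic `q`-series has dimension at most the genus
of `F_k = modularFunctionFieldFullC k M` (`k` algebraically closed of characteristic `p ∤ M`). -/
theorem finrank_le_genusFF [IsAlgClosed k] (p : ℕ) (hp : p.Prime) (hpM : ¬ p ∣ M) [CharP k p]
    (W : Submodule k (PowerSeries k)) (hW : ∀ g ∈ W, IsHoloSeries k M g) :
    Module.finrank k W ≤ genusFF k (modularFunctionFieldFullC k M) := by
  have : Fact p.Prime := ⟨hp⟩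
  have hchar : ∀ ℓ : ℕ, ℓ.Prime → ℓ ∣ M → (ℓ : k) ≠ 0 := by
    intro ℓ hℓ hℓM h0
    have hpl : p ∣ ℓ := (CharP.cast_eq_zero_iff k p ℓ).1 h0
    have : p = ℓ := (Nat.prime_dvd_prime_iff_eq hp hℓ).1 hpl
    exact hpM (this ▸ hℓM)
  have hFF : FF1 k (modularFunctionFieldFullC k M) := Fermat.Agent.S18.H383.ff1_fullC k M hchar
  have hfin : FiniteDimensional
      k⟮(⟨jqModC k, jqModC_mem_full k M⟩ : modularFunctionFieldFullC k M)⟯
      (modularFunctionFieldFullC k M) :=
    Fermat.Agent.S18.H739.finiteDimensional_adjoin_jC k M hchar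
  have halg : Algebra.IsAlgebraic
      k⟮(⟨jqModC k, jqModC_mem_full k M⟩ : modularFunctionFieldFullC k M)⟯
      (modularFunctionFieldFullC k M) := Algebra.IsAlgebraic.of_finite _ _
  have hsep : Algebra.IsSeparable
      k⟮(⟨jqModC k, jqModC_mem_full k M⟩ : modularFunctionFieldFullC k M)⟯
      (modularFunctionFieldFullC k M) :=
    Fermat.Agent.S18.H264.algebra_isSeparable_full k p M
  refine finrank_le_genusFF_of_isHoloVia
    (algebraMap (modularFunctionFieldFullC k M) (LaurentSeries k)) ?_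
    (⟨jqModC k, jqModC_mem_full k M⟩ : modularFunctionFieldFullC k M)
    (span_D_eq_top_of_isSeparable _) ?_ W (fun g hg => isHoloVia_of_isHoloSeries k M (hW g hg))
  · intro c
    rw [← laurent_algebraMap_eq_C]
    rfl
  · exact theta_jqModC_ne_zero

end Modular

/-! ## `DimStatement` from the genus bound -/

/-- The genus of `X₀(M)` over `k` (algebraically closed, characteristic `p ∤ M`) is at most
`dim S₂(Γ₀(M))`  (good reduction: `genus(F_k) ≤ genus(F_ℚ̄)`, + S24 + S20). -/
def GenusBoundStatement : Prop :=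
  ∀ (p M : ℕ) [NeZero M], p.Prime → ¬ p ∣ M →
    ∀ (k : Type) [Field k] [IsAlgClosed k] [CharP k p],
      genusFF k (modularFunctionFieldFullC k M) ≤
        Module.finrank ℂ (CuspForm (CongruenceSubgroup.Gamma0 M) 2)

/-- **I3-DIMK** from the genus bound. -/
theorem dimStatement_of_genusBound (h : GenusBoundStatement) : DimStatement := by
  intro p M _ hp hpM k _ _ _ W _ hW
  exact (finrank_le_genusFF k M p hp hpM W hW).trans (h p M hp hpM k)

end Fermat.Agent.Ribet.H537
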