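import Fermat.Agent.Lib.RR.H80.Res.Bridge

/-!
# Holomorphic Kähler differentials have dimension at most the genus (any characteristic)

(helper537, row 38 / WALL-p / leaf I3-DIMK, abstract core.)

`K` any field, `F / K` a function field with `FF1 K F` (all places of degree one).
A Kähler differential `ω ∈ Ω[F⁄K]` is *holomorphic* (`IsHolo ω`) if at every place `v` it can be
written `ω = c • D π` with `π` a uniformiser at `v` and `c` regular at `v`.

Tate's residue functional `rhoK : Ω[F⁄K] →ₗ[F] Hom_K(𝔸, K)` of `Lib/RR/H80/Res` (helper80;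
characteristic-free) maps a holomorphic differential to a functional vanishing on `𝔸(0) + F`
(`rhoK_eq_zero_of_isHolo`: local vanishing + the residue theorem `rho_principal`), and is
injective (`rhoK_singleA_eq_one`).  Hence

* `finrank_le_genusFF_of_isHolo` : a `K`-subspace `W ⊆ Ω[F⁄K]` of holomorphic differentials has
  `finrank K W ≤ genusFF K F`.

No hypothesis on the characteristic, no completions, no Riemann–Hurwitz.
-/

set_option autoImplicit false

noncomputable section

open AlgebraicCurve KaehlerDifferential

namespace Fermat.Agent.Ribet.H537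

open Fermat.Agent.Lib.RR Fermat.Agent.Lib.RR.H80 LinearMap Module

variable {K F : Type*} [Field K] [Field F] [Algebra K F]

/-- `ω` is holomorphic: at every place it is `c • D π`, `π` a uniformiser, `c` regular. -/
def IsHolo (ω : Ω[F⁄K]) : Prop :=
  ∀ v : Place K F, ∃ π c : F, v.ord π = 1 ∧ 0 ≤ v.ord c ∧ ω = c • D K F π

variable [hFF : FF1 K F]

/-- The residue functional of a holomorphic differential kills integral adeles with finite
support. -/
theorem rhoK_eq_zero_of_support {ω : Ω[F⁄K]} (hω : IsHolo ω) (S : Finset (Place K F)) :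
    ∀ β : ↥(repartitions K F), (∀ w : Place K F, 0 ≤ w.ord ((β : Place K F → F) w)) →
      (∀ w : Place K F, w ∉ S → (β : Place K F → F) w = 0) → (rhoK ω).fn β = 0 := by
  classical
  induction S using Finset.induction_on with
  | empty =>
    intro β _ h0
    have hβ : β = 0 := by
      apply Subtype.ext
      funext w
      exact h0 w (Finset.notMem_empty w)
    rw [hβ, map_zero]
  | insert v S hv ih =>
    intro β hint h0
    obtain ⟨π, c, hπ, hc, rfl⟩ := hω v
    have hsplit : β = (β - singleA v ((β : Place K F → F) v)) +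
        singleA v ((β : Place K F → F) v) := by
      rw [sub_add_cancel]
    have hval : ∀ w : Place K F,
        ((β - singleA v ((β : Place K F → F) v) : ↥(repartitions K F)) : Place K F → F) w =
          (β : Place K F → F) w - (singleA v ((β : Place K F → F) v) : Place K F → F) w := by
      intro w
      rfl
    have h1 : (rhoK (c • D K F π)).fn (β - singleA v ((β : Place K F → F) v)) = 0 := by
      refine ih _ ?_ ?_
      · intro w
        rw [hval]
        by_cases hw : w = v
        · subst hw
          rw [singleA_apply_self, sub_self, Place.ord_zero]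
        · rw [singleA_apply_of_ne _ _ hw, sub_zero]
          exact hint w
      · intro w hw
        rw [hval]
        by_cases hwv : w = v
        · subst hwv
          rw [singleA_apply_self, sub_self]
        · rw [singleA_apply_of_ne _ _ hwv, sub_zero]
          exact h0 w (by
            intro hmem
            rcases Finset.mem_insert.1 hmem with h | h
            · exact hwv h
            · exact hw h)
    have h2 : (rhoK (c • D K F π)).fn (singleA v ((β : Place K F → F) v)) = 0 :=
      rhoK_singleA_eq_zero v (by rw [hπ]; exact zero_le_one)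
        (H742.ord_mul_nonneg v hc (hint v))
    rw [hsplit, map_add, h1, h2, add_zero]

/-- The residue functional of a holomorphic differential vanishes on the integral adeles. -/
theorem rhoK_eq_zero_of_mem_A0 {ω : Ω[F⁄K]} (hω : IsHolo ω) {α : ↥(repartitions K F)}
    (hα : α ∈ repartitionsOf (0 : Divisor K F)) : (rhoK ω).fn α = 0 := by
  classical
  obtain ⟨v₀⟩ := FF1.nonempty_place (K := K) (F := F)
  obtain ⟨t, c, -, -, hωeq⟩ := hω v₀
  have hint := mem_A0_iff.mp hα
  set S : Set (Place K F) := {v | v.ord c < 0} ∪ {v | v.ord t < 0} with hS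
  have hSfin : S.Finite := (H742.finite_poles c).union (H742.finite_poles t)
  have hsplit : α = indA S * α + indA Sᶜ * α := by
    apply Subtype.ext
    funext v
    rw [H980.val_apply_add, coe_mul_apply, coe_mul_apply]
    by_cases hv : v ∈ S
    · rw [indA_apply_of_mem hv, indA_apply_of_not_mem (show v ∉ Sᶜ from fun hc => hc hv),
        one_mul, zero_mul, add_zero]
    · rw [indA_apply_of_not_mem hv, indA_apply_of_mem (show v ∈ Sᶜ from hv), one_mul, zero_mul,
        zero_add]
  have h1 : (rhoK ω).fn (indA S * α) = 0 := by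
    refine rhoK_eq_zero_of_support hω hSfin.toFinset _ (fun w => ?_) (fun w hw => ?_)
    · rw [coe_mul_apply]
      by_cases hv : w ∈ S
      · rw [indA_apply_of_mem hv, one_mul]
        exact hint w
      · rw [indA_apply_of_not_mem hv, zero_mul, Place.ord_zero]
    · have hw' : w ∉ S := fun h => hw (hSfin.mem_toFinset.2 h)
      rw [coe_mul_apply, indA_apply_of_not_mem hw', zero_mul]
  have h2 : (rhoK ω).fn (indA Sᶜ * α) = 0 := by
    rw [hωeq, rhoK_smul_D]
    refine rho_eq_zero_of_integral t _ fun v => ?_
    by_cases hv : v ∈ S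
    · left
      rw [H80.coe_smul_apply, coe_mul_apply,
        indA_apply_of_not_mem (show v ∉ Sᶜ from fun hc => hc hv), zero_mul, mul_zero]
    · right
      have hc0 : 0 ≤ v.ord c := not_lt.mp fun h => hv (Or.inl h)
      have ht0 : 0 ≤ v.ord t := not_lt.mp fun h => hv (Or.inr h)
      refine ⟨?_, ht0⟩
      rw [H80.coe_smul_apply, coe_mul_apply, indA_apply_of_mem (show v ∈ Sᶜ from hv), one_mul]
      exact H742.ord_mul_nonneg v hc0 (hint v)
  rw [hsplit, map_add, h1, h2, add_zero]

/-- The residue functional of a holomorphic differential vanishes on `𝔸(0) + F`. -/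
theorem rhoK_eq_zero_of_isHolo {ω : Ω[F⁄K]} (hω : IsHolo ω) {α : ↥(repartitions K F)}
    (hα : α ∈ repartitionsOf (0 : Divisor K F) ⊔ principalRepartitions K F) :
    (rhoK ω).fn α = 0 := by
  obtain ⟨a, ha, b, hb, rfl⟩ := Submodule.mem_sup.1 hα
  rw [map_add, rhoK_eq_zero_of_mem_A0 hω ha, zero_add]
  obtain ⟨v₀⟩ := FF1.nonempty_place (K := K) (F := F)
  obtain ⟨t, c, -, -, hωeq⟩ := hω v₀
  rw [hωeq, rhoK_smul_D]
  refine rho_principal t ?_
  rw [← H980.range_diag] at hb ⊢
  obtain ⟨x, rfl⟩ := hb
  exact ⟨c * x, by rw [← diag_mul_eq_smul, diag_mul]⟩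

/-- A nonzero holomorphic differential has a nonzero residue functional. -/
theorem rhoK_ne_zero_of_isHolo {ω : Ω[F⁄K]} (hω : IsHolo ω) (h0 : ω ≠ 0) :
    (rhoK ω).fn ≠ 0 := by
  obtain ⟨v₀⟩ := FF1.nonempty_place (K := K) (F := F)
  obtain ⟨t, c, ht, -, hωeq⟩ := hω v₀
  have hc : c ≠ 0 := by
    rintro rfl
    rw [zero_smul] at hωeq
    exact h0 hωeq
  intro h
  have h1 := rhoK_singleA_eq_one (K := K) v₀ ht hc
  rw [← hωeq, h, LinearMap.zero_apply] at h1
  exact zero_ne_one h1

/-- **Dimension bound.**  A `K`-space of holomorphic Kähler differentials has dimension at most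
the genus `genusFF K F = dim_K 𝔸 / (𝔸(0) + F)`. -/
theorem finrank_le_genusFF_of_isHolo (W : Submodule K Ω[F⁄K]) (hW : ∀ ω ∈ W, IsHolo ω) :
    Module.finrank K W ≤ genusFF K F := by
  set N : Submodule K ↥(repartitions K F) :=
    repartitionsOf (0 : Divisor K F) ⊔ principalRepartitions K F with hN
  have hfin : Module.Finite K (↥(repartitions K F) ⧸ N) := finite_H1 (0 : Divisor K F)
  -- the residue map, `K`-linear
  let R : W →ₗ[K] Module.Dual K ↥(repartitions K F) :=
    { toFun := fun ω => (rhoK (ω : Ω[F⁄K])).fn
      map_add' := fun ω ω' => by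
        show (rhoK ((ω : Ω[F⁄K]) + (ω' : Ω[F⁄K]))).fn = _
        rw [map_add]
        rfl
      map_smul' := fun c ω => by
        show (rhoK (c • (ω : Ω[F⁄K]))).fn = _
        rw [← algebraMap_smul F c (ω : Ω[F⁄K]), map_smul, algebraMap_smul]
        rfl }
  have hRann : ∀ ω : W, R ω ∈ N.dualAnnihilator := by
    intro ω
    rw [Submodule.mem_dualAnnihilator]
    intro α hα
    exact rhoK_eq_zero_of_isHolo (hW ω ω.2) hα
  have hRinj : Function.Injective (R.codRestrict N.dualAnnihilator hRann) := by
    refine (injective_iff_map_eq_zero _).2 ?_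
    intro ω hω
    by_contra h0
    have h1 : (ω : Ω[F⁄K]) ≠ 0 := fun h => h0 (Subtype.ext h)
    have h2 : R ω = 0 := congrArg Subtype.val hω
    exact rhoK_ne_zero_of_isHolo (hW ω ω.2) h1 h2
  have e := Submodule.dualQuotEquivDualAnnihilator N
  have hfin2 : Module.Finite K (Module.Dual K (↥(repartitions K F) ⧸ N)) := inferInstance
  have hfin3 : Module.Finite K N.dualAnnihilator := Module.Finite.equiv e
  calc Module.finrank K W ≤ Module.finrank K N.dualAnnihilator :=
        LinearMap.finrank_le_finrank_of_injective hRinj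
    _ = Module.finrank K (Module.Dual K (↥(repartitions K F) ⧸ N)) := e.finrank_eq.symm
    _ = Module.finrank K (↥(repartitions K F) ⧸ N) := Subspace.dual_finrank_eq
    _ = genusFF K F := rfl

end Fermat.Agent.Ribet.H537
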